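/-
S25, unit U6: elementary facts on expansions and on series with an invertible leading coefficient.
-/
import Fermat.Agent.Jac.Base
import Mathlib.FieldTheory.IsAlgClosed.Basic
import Mathlib.RingTheory.Jacobson.Ring

set_option autoImplicit false
set_option linter.style.haveILetI false

noncomputable section

universe u

open TensorProduct

namespace Fermat.Agent.Jac

theorem isUnit_of_lead {R : Type*} [CommRing R] {x : LaurentSeries R} {m : ℤ}
    (hm : IsUnit (x.coeff m)) (hlow : ∀ i : ℤ, i < m → x.coeff i = 0) : IsUnit x := by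
  let y : LaurentSeries R := HahnSeries.single (-m) 1 * x
  have hy : ∀ i : ℤ, y.coeff i = x.coeff (i + m) := fun i => by
    have := HahnSeries.coeff_single_mul_add (r := (1 : R)) (x := x) (a := i + m) (b := -m)
    rw [one_mul, add_neg_cancel_right] at this
    exact this
  let p : PowerSeries R := PowerSeries.mk fun n => y.coeff n
  have hyp : HahnSeries.ofPowerSeries ℤ R p = y := by
    ext i
    rcases lt_or_ge i 0 with hi | hi
    · rw [hy, hlow _ (by omega), PowerSeries.coeff_coe, if_pos hi]
    · obtain ⟨n, rfl⟩ := Int.eq_ofNat_of_zero_le hi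
      rw [HahnSeries.ofPowerSeries_apply_coeff, PowerSeries.coeff_mk]
  have hp : IsUnit p := PowerSeries.isUnit_iff_constantCoeff.mpr (by
    rw [← PowerSeries.coeff_zero_eq_constantCoeff_apply, PowerSeries.coeff_mk, hy]
    simpa using hm)
  have hyu : IsUnit y := hyp ▸ hp.map _
  exact isUnit_of_mul_isUnit_right hyu

theorem exists_algHom_ker {K S : Type*} [Field K] [IsAlgClosed K] [CommRing S] [Algebra K S]
    [Algebra.FiniteType K S] (P : Ideal S) [hP : P.IsMaximal] :
    ∃ φ : S →ₐ[K] K, RingHom.ker (φ : S →+* K) = P := by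
  letI : Field (S ⧸ P) := Ideal.Quotient.field P
  haveI : Algebra.FiniteType K (S ⧸ P) :=
    Algebra.FiniteType.of_surjective (Ideal.Quotient.mkₐ K P) Ideal.Quotient.mk_surjective
  haveI : Module.Finite K (S ⧸ P) := finite_of_finite_type_of_isJacobsonRing K (S ⧸ P)
  let e : K ≃ₐ[K] S ⧸ P :=
    AlgEquiv.ofBijective (Algebra.ofId K (S ⧸ P)) IsAlgClosed.algebraMap_bijective_of_isIntegral
  refine ⟨e.symm.toAlgHom.comp (Ideal.Quotient.mkₐ K P), Ideal.ext fun x => ?_⟩
  rw [RingHom.mem_ker]
  show e.symm (Ideal.Quotient.mk P x) = 0 ↔ _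
  rw [map_eq_zero_iff _ e.symm.injective, Ideal.Quotient.eq_zero_iff_mem]

namespace CurveData

variable {k : Type u} [Field k] {D : CurveData k} {B : Type u} [CommRing B] [Algebra k B]

theorem embB_tmul_eq (b : B) (a : D.A) :
    D.embB B (b ⊗ₜ a) = algebraMap B (LaurentSeries B) b *
      coeffMapₐ (Algebra.ofId k B) (D.emb a) := by
  simp only [embB, Algebra.TensorProduct.lift_tmul, Algebra.ofId_apply, AlgHom.comp_apply]

theorem embB_one_tmul_coeff (a : D.A) (i : ℤ) :
    (D.embB B ((1 : B) ⊗ₜ a)).coeff i = algebraMap k B ((D.emb a).coeff i) := by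
  rw [embB_tmul_eq, map_one, one_mul, coeffMapₐ_coeff]
  rfl

theorem algebraMap_series (b : B) : algebraMap B (LaurentSeries B) b = HahnSeries.C b := by
  rw [HahnSeries.algebraMap_apply]
  simp

theorem C_mem_reg (b : B) : HahnSeries.C b ∈ D.reg B := by
  rw [← algebraMap_series]
  exact Subalgebra.algebraMap_mem _ b

theorem embB_mem_reg (x : D.Coord B) : D.embB B x ∈ D.reg B := AlgHom.mem_range_self _ x

/-- The element of the kernel of evaluation at a point given by a function. -/
def delta (σ : D.A →ₐ[k] B) (a : D.A) : LaurentSeries B :=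
  D.embB B (Algebra.TensorProduct.includeRight a) - HahnSeries.C (σ a)

theorem delta_mem_reg (σ : D.A →ₐ[k] B) (a : D.A) : delta σ a ∈ D.reg B :=
  sub_mem (embB_mem_reg _) (C_mem_reg _)

theorem delta_coeff_neg (σ : D.A →ₐ[k] B) (a : D.A) {i : ℤ} (hi : i < 0) :
    (delta σ a).coeff i = algebraMap k B ((D.emb a).coeff i) := by
  rw [delta, HahnSeries.coeff_sub, Algebra.TensorProduct.includeRight_apply, embB_one_tmul_coeff,
    HahnSeries.C_apply, HahnSeries.coeff_single, if_neg hi.ne, sub_zero]

theorem exists_isUnit_delta (σ : D.A →ₐ[k] B) : ∃ a : D.A, IsUnit (delta σ a) := by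
  obtain ⟨n, hn, hn0⟩ : ∃ n, n ∉ D.gaps ∧ 0 < n := by
    obtain ⟨n, hn⟩ := Infinite.exists_notMem_finset (insert 0 D.gaps)
    simp at hn
    exact ⟨n, hn.2, by omega⟩
  obtain ⟨a, h1, hlow⟩ := D.exists_monic n hn
  refine ⟨a, isUnit_of_lead (m := -(n : ℤ)) ?_ fun i hi => ?_⟩
  · rw [delta_coeff_neg σ a (by omega), h1, map_one]
    exact isUnit_one
  · rw [delta_coeff_neg σ a (by omega), hlow i hi, map_zero]

end CurveData

end Fermat.Agent.Jac
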