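/-
S25, unit U6: the ideal of a point is invertible.
-/
import Fermat.Agent.Jac.Points.Series
import Mathlib.RingTheory.Kaehler.Basic
import Mathlib.RingTheory.Nakayama
import Mathlib.RingTheory.FiniteStability
import Mathlib.RingTheory.DedekindDomain.Ideal.Lemmas

set_option autoImplicit false
set_option linter.style.haveILetI false

noncomputable section

universe u

open TensorProduct Pointwise

namespace Fermat.Agent.Jac

section Diagonal

variable (k A : Type u) [Field k] [IsAlgClosed k] [CommRing A] [IsDedekindDomain A]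
  [Algebra k A] [Algebra.FiniteType k A]

/-- The ideal of the diagonal is locally principal. -/
theorem exists_local_generator (P : Ideal (A ⊗[k] A)) [hP : P.IsMaximal] :
    ∃ s ∉ P, ∃ w ∈ (KaehlerDifferential.ideal k A), ∀ y ∈ (KaehlerDifferential.ideal k A), ∃ r, s * y = r * w := by
  classical
  haveI : Algebra.FiniteType k (A ⊗[k] A) :=
    Algebra.FiniteType.trans (S := A) inferInstance inferInstance
  obtain ⟨φ, hφ⟩ := exists_algHom_ker (K := k) P
  let d : A → A ⊗[k] A := fun a => (1 : A) ⊗ₜ[k] a - a ⊗ₜ[k] (1 : A)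
  have hd : ∀ a, d a ∈ (KaehlerDifferential.ideal k A) := fun a => KaehlerDifferential.one_smul_sub_smul_one_mem_ideal k a
  have hspan : Ideal.span (Set.range d) = (KaehlerDifferential.ideal k A) := KaehlerDifferential.span_range_eq_ideal k A
  let Q : A →ₐ[k] k := φ.comp Algebra.TensorProduct.includeLeft
  let Q' : A →ₐ[k] k := φ.comp Algebra.TensorProduct.includeRight
  have hmemP : ∀ x, x ∈ P ↔ φ x = 0 := fun x => by rw [← hφ]; exact RingHom.mem_ker
  have key : ∃ w ∈ (KaehlerDifferential.ideal k A), (KaehlerDifferential.ideal k A) ≤ Ideal.span {w} ⊔ P • (KaehlerDifferential.ideal k A) := by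
    by_cases hne : ∃ a, d a ∉ P
    · obtain ⟨a, ha⟩ := hne
      refine ⟨d a, hd a, fun y hy => ?_⟩
      obtain ⟨u, p, hp, hup⟩ := hP.exists_inv ha
      rw [show y = y * u * d a + p • y by rw [smul_eq_mul]; linear_combination (-y) * hup]
      exact Submodule.add_mem_sup (Ideal.mul_mem_left _ _ (Ideal.mem_span_singleton_self _))
        (Submodule.smul_mem_smul hp hy)
    · push Not at hne
      have hQ : ∀ a, Q' a = Q a := fun a => by
        have := (hmemP _).mp (hne a)
        rw [map_sub, sub_eq_zero] at this
        exact this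
      let m : Ideal A := RingHom.ker (Q : A →+* k)
      haveI hm : m.IsMaximal := RingHom.ker_isMaximal_of_surjective (Q : A →+* k)
        fun r => ⟨algebraMap k A r, Q.commutes r⟩
      have hnf : ¬ IsField A → m ≠ ⊥ := fun h => Ring.ne_bot_of_isMaximal_of_not_isField hm h
      rcases em (IsField A) with hA | hA
      · letI := hA.toField
        have hm0 : m = ⊥ := (Ideal.eq_bot_or_top m).resolve_right hm.ne_top
        refine ⟨0, zero_mem _, fun y hy => ?_⟩
        rw [← hspan] at hy
        refine (Ideal.span_le.mpr ?_) hy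
        rintro _ ⟨a, rfl⟩
        have ha : a - algebraMap k A (Q a) ∈ m := RingHom.mem_ker.mpr (by simp [AlgHom.commutes])
        rw [hm0, Ideal.mem_bot, sub_eq_zero] at ha
        rw [show d a = 0 by
          simp only [d]; rw [ha, Algebra.algebraMap_eq_smul_one, TensorProduct.tmul_smul,
            TensorProduct.smul_tmul', sub_self]]
        exact zero_mem _
      · obtain ⟨π, hπ, hπ2⟩ : ∃ π ∈ m, π ∉ m ^ 2 := SetLike.exists_of_lt
          (Ideal.pow_right_strictAnti m (hnf hA) hm.ne_top (show 1 < 2 by omega) |>.trans_eq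
            (pow_one m))
        have hsup : Ideal.span {π} ⊔ m ^ 2 = m := by
          refine le_antisymm (sup_le ((Ideal.span_singleton_le_iff_mem m).mpr hπ)
            (Ideal.pow_le_self two_ne_zero)) ?_
          have hle : m ^ 2 ≤ Ideal.span {π} ⊔ m ^ 2 := le_sup_right
          haveI : m.IsPrime := hm.isPrime
          obtain ⟨i, hi, he⟩ := (dvd_prime_pow (Ideal.prime_of_isPrime (hnf hA) inferInstance) 2).mp
            (Ideal.dvd_iff_le.mpr hle)
          have he' : Ideal.span {π} ⊔ m ^ 2 = m ^ i := associated_iff_eq.mp he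
          rw [he']
          rcases eq_or_ne i 2 with rfl | hi2
          · exact absurd (he' ▸ Submodule.mem_sup_left (Ideal.mem_span_singleton_self π)) hπ2
          · calc m = m ^ 1 := (pow_one m).symm
              _ ≤ m ^ i := Ideal.pow_le_pow_right (by omega)
        refine ⟨d π, hd π, fun y hy => ?_⟩
        rw [← hspan] at hy
        refine (Ideal.span_le.mpr ?_) hy
        rintro _ ⟨a, rfl⟩
        have hmul : ∀ x z, d (x * z) = d x * ((1 : A) ⊗ₜ[k] z) + (x ⊗ₜ[k] (1 : A)) * d z := fun x z => by
          simp only [d, mul_sub, sub_mul, Algebra.TensorProduct.tmul_mul_tmul, mul_one, one_mul]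
          abel
        have hsub : ∀ z ∈ m ^ 2, d z ∈ P • (KaehlerDifferential.ideal k A) := fun z hz => by
          rw [pow_two] at hz
          refine Submodule.mul_induction_on hz (fun x hx w hw => ?_) (fun x w hx hw => ?_)
          · rw [hmul, mul_comm (d x)]
            refine add_mem ?_ ?_
            · exact Submodule.smul_mem_smul ((hmemP _).mpr ((hQ w).trans (RingHom.mem_ker.mp hw)))
                (hd x)
            · exact Submodule.smul_mem_smul ((hmemP _).mpr (RingHom.mem_ker.mp hx)) (hd w)
          · rw [show d (x + w) = d x + d w by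
              simp only [d, TensorProduct.tmul_add, TensorProduct.add_tmul]; abel]
            exact add_mem hx hw
        have ha : a - algebraMap k A (Q a) ∈ m := RingHom.mem_ker.mpr (by simp [AlgHom.commutes])
        rw [← hsup, Submodule.mem_sup] at ha
        obtain ⟨z, hz, z', hz', hzz⟩ := ha
        obtain ⟨r, rfl⟩ := Ideal.mem_span_singleton'.mp hz
        have e : d a = d (r * π) + d z' := by
          have hc : d (algebraMap k A (Q a)) = 0 := by
            simp only [d]
            rw [Algebra.algebraMap_eq_smul_one, TensorProduct.tmul_smul, TensorProduct.smul_tmul',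
              sub_self]
          calc d a = d (a - algebraMap k A (Q a)) + d (algebraMap k A (Q a)) := by
                simp only [d, TensorProduct.tmul_sub, TensorProduct.sub_tmul]; abel
            _ = _ := by
                rw [hc, add_zero, ← hzz]
                simp only [d, TensorProduct.tmul_add, TensorProduct.add_tmul]; abel
        rw [e, hmul, mul_comm (d r)]
        refine add_mem (add_mem (Submodule.mem_sup_right ?_) (Submodule.mem_sup_left ?_))
          (Submodule.mem_sup_right (hsub _ hz'))
        · exact Submodule.smul_mem_smul ((hmemP _).mpr ((hQ π).trans (RingHom.mem_ker.mp hπ))) (hd r)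
        · exact Ideal.mul_mem_left _ _ (Ideal.mem_span_singleton_self _)
  obtain ⟨w, hw, hle⟩ := key
  let N : Submodule (A ⊗[k] A) ((A ⊗[k] A) ⧸ Ideal.span {w}) :=
    Submodule.map (Submodule.mkQ (Ideal.span {w})) (KaehlerDifferential.ideal k A)
  have hN : N ≤ P • N := by
    rw [← Submodule.map_smul'', Submodule.map_le_iff_le_comap]
    refine hle.trans (sup_le ?_ (Submodule.le_comap_map _ _))
    intro x hx
    rw [Submodule.mem_comap]
    rw [show Submodule.mkQ (Ideal.span {w}) x = 0 from (Submodule.Quotient.mk_eq_zero _).mpr hx]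
    exact zero_mem _
  obtain ⟨s, hs, hs'⟩ := Submodule.exists_sub_one_mem_and_smul_eq_zero_of_fg_of_le_smul P N
    (Submodule.FG.map _ (KaehlerDifferential.ideal_fg k A)) hN
  refine ⟨s, fun h => hP.ne_top ((Ideal.eq_top_iff_one P).mpr (by simpa using sub_mem h hs)), w, hw,
    fun y hy => ?_⟩
  have h1 := hs' _ ⟨y, hy, rfl⟩
  rw [← map_smul, Submodule.mkQ_apply, Submodule.Quotient.mk_eq_zero, smul_eq_mul,
    Ideal.mem_span_singleton'] at h1
  obtain ⟨r, hr⟩ := h1
  exact ⟨r, hr.symm⟩

end Diagonal

namespace CurveData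

variable {k : Type u} [Field k] {D : CurveData k}
variable {B B' : Type u} [CommRing B] [Algebra k B] [CommRing B'] [Algebra k B']

/-- The expansions of the functions vanishing at a point. -/
def pointKer (σ : D.A →ₐ[k] B) : Submodule (D.reg B) (LaurentSeries B) :=
  Submodule.span (D.reg B)
    (Set.range fun a : D.A => D.embB B (Algebra.TensorProduct.includeRight a) - HahnSeries.C (σ a))

theorem delta_mem_pointKer (σ : D.A →ₐ[k] B) (a : D.A) : delta σ a ∈ pointKer σ :=
  Submodule.subset_span ⟨a, rfl⟩

theorem mapSub_pointKer (σ : D.A →ₐ[k] B) (φ : B →ₐ[k] B') :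
    D.mapSub φ (pointKer σ) = pointKer (φ.comp σ) := by
  have e : ∀ a, coeffMapₐ φ (delta σ a) = delta (φ.comp σ) a := fun a => by
    rw [delta, map_sub, D.coeffMapₐ_embB, Algebra.TensorProduct.includeRight_apply,
      Algebra.TensorProduct.map_tmul, map_one]
    congr 1
    ext n
    simp only [coeffMapₐ_coeff, HahnSeries.C_apply, HahnSeries.coeff_single, AlgHom.comp_apply]
    split_ifs <;> simp
  refine le_antisymm (Submodule.span_le.mpr ?_) (Submodule.span_le.mpr ?_)
  · rintro _ ⟨x, hx, rfl⟩
    induction hx using Submodule.span_induction with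
    | mem x hx =>
      obtain ⟨a, rfl⟩ := hx
      exact Submodule.subset_span ⟨a, (e a).symm⟩
    | zero => rw [map_zero]; exact zero_mem _
    | add x y _ _ hx hy => rw [map_add]; exact add_mem hx hy
    | smul r x _ hx =>
      rw [Algebra.smul_def, map_mul]
      exact Submodule.smul_mem _ (⟨_, D.coeffMapₐ_mem_reg φ r.2⟩ : D.reg B') hx
  · rintro _ ⟨a, rfl⟩
    exact Submodule.subset_span ⟨delta σ a, delta_mem_pointKer σ a, e a⟩

theorem pointKer_le_one (σ : D.A →ₐ[k] B) : pointKer σ ≤ 1 :=
  Submodule.span_le.mpr (by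
    rintro _ ⟨a, rfl⟩
    exact Submodule.mem_one.mpr ⟨⟨_, delta_mem_reg σ a⟩, rfl⟩)

theorem isUnit_pointKer_universal [IsAlgClosed k] :
    IsUnit (pointKer (D := D) (B := D.A) (AlgHom.id k D.A)) := by
  set I := pointKer (D := D) (B := D.A) (AlgHom.id k D.A) with hI
  let e := D.embB D.A
  obtain ⟨a₀, ha₀⟩ := exists_isUnit_delta (AlgHom.id k D.A)
  have he : ∀ a : D.A, e ((1 : D.A) ⊗ₜ[k] a - a ⊗ₜ[k] (1 : D.A)) = delta (AlgHom.id k D.A) a := by
    intro a
    rw [map_sub, delta, Algebra.TensorProduct.includeRight_apply]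
    congr 1
    rw [embB_tmul_eq, map_one, map_one, mul_one, algebraMap_series]
    rfl
  have hmem : ∀ x ∈ KaehlerDifferential.ideal k D.A, e x ∈ I := fun x hx => by
    rw [← KaehlerDifferential.span_range_eq_ideal] at hx
    induction hx using Submodule.span_induction with
    | mem x hx => obtain ⟨a, rfl⟩ := hx; rw [he]; exact delta_mem_pointKer _ a
    | zero => rw [map_zero]; exact zero_mem _
    | add x y _ _ hx hy => rw [map_add]; exact add_mem hx hy
    | smul r x _ hx =>
      rw [smul_eq_mul, map_mul]
      exact I.smul_mem (⟨e r, embB_mem_reg r⟩ : D.reg D.A) hx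
  let V : Submodule (D.reg D.A) (LaurentSeries D.A) :=
    { carrier := {x | ∀ y ∈ I, x * y ∈ (1 : Submodule (D.reg D.A) (LaurentSeries D.A))}
      add_mem' := fun {x z} hx hz y hy => by rw [add_mul]; exact add_mem (hx y hy) (hz y hy)
      zero_mem' := fun y _ => by rw [zero_mul]; exact zero_mem _
      smul_mem' := fun c x hx y hy => by rw [smul_mul_assoc]; exact Submodule.smul_mem _ c (hx y hy) }
  let J : Ideal (D.Coord D.A) :=
    { carrier := {x | e x ∈ V * I}
      add_mem' := fun {x z} hx hz => by
        simp only [Set.mem_ofPred_eq, map_add] at *; exact add_mem hx hz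
      zero_mem' := by simp
      smul_mem' := fun c x hx => by
        simp only [Set.mem_ofPred_eq, smul_eq_mul, map_mul] at *
        exact (V * I).smul_mem (⟨e c, embB_mem_reg c⟩ : D.reg D.A) hx }
  have hJ : J = ⊤ := by
    by_contra hne
    obtain ⟨P, hP, hJP⟩ := Ideal.exists_le_maximal J hne
    obtain ⟨s, hs, w, hw, hsw⟩ := exists_local_generator k D.A P
    obtain ⟨r, hr⟩ := hsw _ (KaehlerDifferential.one_smul_sub_smul_one_mem_ideal k a₀)
    set q := delta (AlgHom.id k D.A) a₀ with hq
    have hr' : e s * q = e r * e w := by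
      rw [hq, ← he, ← map_mul, ← map_mul]
      exact congrArg e hr
    let x := e (s * r) * (ha₀.unit⁻¹ : (LaurentSeries D.A)ˣ)
    have hqq : (ha₀.unit⁻¹ : (LaurentSeries D.A)ˣ).1 * q = 1 := ha₀.val_inv_mul
    have hxw : x * e w = e (s * s) := by
      simp only [x, map_mul]
      calc e s * e r * (ha₀.unit⁻¹ : (LaurentSeries D.A)ˣ) * e w
          = e s * (e r * e w) * (ha₀.unit⁻¹ : (LaurentSeries D.A)ˣ) := by ring
        _ = e s * e s * ((ha₀.unit⁻¹ : (LaurentSeries D.A)ˣ).1 * q) := by rw [← hr']; ring
        _ = e s * e s := by rw [hqq, mul_one]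
    have hxV : x ∈ V := fun y hy => by
      induction hy using Submodule.span_induction with
      | mem y hy =>
        obtain ⟨a, rfl⟩ := hy
        obtain ⟨t, ht⟩ := hsw _ (KaehlerDifferential.one_smul_sub_smul_one_mem_ideal k a)
        have ht' : e s * delta (AlgHom.id k D.A) a = e t * e w := by
          rw [← he, ← map_mul, ← map_mul]
          exact congrArg e ht
        refine Submodule.mem_one.mpr ⟨⟨e (t * s), embB_mem_reg _⟩, ?_⟩
        show e (t * s) = x * delta (AlgHom.id k D.A) a
        calc e (t * s) = e t * e s * ((ha₀.unit⁻¹ : (LaurentSeries D.A)ˣ).1 * q) := by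
              rw [hqq, mul_one, map_mul]
          _ = e t * (e r * e w) * (ha₀.unit⁻¹ : (LaurentSeries D.A)ˣ).1 := by rw [← hr']; ring
          _ = e r * (ha₀.unit⁻¹ : (LaurentSeries D.A)ˣ).1 * (e t * e w) := by ring
          _ = x * delta (AlgHom.id k D.A) a := by
              rw [← ht']; simp only [x, map_mul]; ring
      | zero => rw [mul_zero]; exact zero_mem _
      | add y z _ _ hy hz => rw [mul_add]; exact add_mem hy hz
      | smul c y _ hy => rw [mul_smul_comm]; exact Submodule.smul_mem _ c hy
    have : s * s ∈ J := by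
      show e (s * s) ∈ V * I
      rw [← hxw]
      exact Submodule.mul_mem_mul hxV (hmem w hw)
    exact hs ((hP.isPrime.mem_or_mem (hJP this)).elim id id)
  have h1 : (1 : Submodule (D.reg D.A) (LaurentSeries D.A)) ≤ V * I := by
    rw [Submodule.one_le]
    have : (1 : D.Coord D.A) ∈ J := hJ ▸ Submodule.mem_top
    simpa [J] using this
  have h2 : V * I ≤ 1 := Submodule.mul_le.mpr fun x hx y hy => hx y hy
  exact IsUnit.of_mul_eq_one V (by rw [mul_comm]; exact le_antisymm h2 h1)

theorem isUnit_pointKer [IsAlgClosed k] (σ : D.A →ₐ[k] B) : IsUnit (pointKer σ) := by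
  have := (isUnit_pointKer_universal (D := D)).map (D.mapSub σ)
  rwa [mapSub_pointKer, AlgHom.comp_id] at this

end CurveData

end Fermat.Agent.Jac
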