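/-
S25, unit U6: evaluation at points and degrees of line bundles over a field.
-/
import Fermat.Agent.Jac.Lat
import Fermat.Agent.Jac.Points.Kernel

set_option autoImplicit false
set_option linter.style.haveILetI false

noncomputable section

universe u

open TensorProduct

namespace Fermat.Agent.Jac.CurveData

variable {k : Type u} [Field k] {D : CurveData k}

section Eval

variable {B : Type u} [CommRing B] [Algebra k B]

/-- Evaluation of regular functions at a point. -/
def evReg (σ : D.A →ₐ[k] B) : D.reg B →ₐ[B] B :=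
  (Algebra.TensorProduct.lift (Algebra.ofId B B) σ fun _ _ => mul_comm _ _).comp
    (AlgEquiv.ofInjective (D.embB B) embB_injective).symm.toAlgHom

theorem evReg_embB (σ : D.A →ₐ[k] B) (y : D.Coord B) :
    evReg σ ⟨D.embB B y, embB_mem_reg y⟩ =
      Algebra.TensorProduct.lift (Algebra.ofId B B) σ (fun _ _ => mul_comm _ _) y := by
  show Algebra.TensorProduct.lift (Algebra.ofId B B) σ (fun _ _ => mul_comm _ _)
    ((AlgEquiv.ofInjective (D.embB B) embB_injective).symm ⟨D.embB B y, embB_mem_reg y⟩) = _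
  exact congrArg _ ((AlgEquiv.ofInjective (D.embB B) embB_injective).symm_apply_apply y)

theorem evReg_tmul (σ : D.A →ₐ[k] B) (b : B) (a : D.A) :
    evReg σ ⟨D.embB B (b ⊗ₜ a), embB_mem_reg _⟩ = b * σ a := by
  rw [evReg_embB]
  simp [Algebra.ofId_apply]

theorem evReg_includeRight (σ : D.A →ₐ[k] B) (a : D.A) :
    evReg σ ⟨D.embB B (Algebra.TensorProduct.includeRight a), embB_mem_reg _⟩ = σ a := by
  rw [Algebra.TensorProduct.includeRight_apply]
  exact (evReg_tmul σ 1 a).trans (one_mul _)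

theorem evReg_C (σ : D.A →ₐ[k] B) (b : B) :
    evReg σ ⟨HahnSeries.C b, C_mem_reg b⟩ = b := by
  have e : (⟨HahnSeries.C b, C_mem_reg b⟩ : D.reg B) = algebraMap B (D.reg B) b :=
    Subtype.ext (algebraMap_series b).symm
  rw [e, AlgHom.commutes]
  rfl

theorem sub_C_evReg_mem (σ : D.A →ₐ[k] B) (y : D.Coord B) :
    D.embB B y - HahnSeries.C (evReg σ ⟨D.embB B y, embB_mem_reg y⟩) ∈ pointKer σ := by
  induction y using TensorProduct.induction_on with
  | zero =>
    rw [evReg_embB, map_zero, map_zero, map_zero, sub_zero]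
    exact zero_mem _
  | tmul b a =>
    rw [evReg_tmul, map_mul]
    have : D.embB B (b ⊗ₜ a) - HahnSeries.C b * HahnSeries.C (σ a) =
        (⟨HahnSeries.C b, C_mem_reg b⟩ : D.reg B) • delta σ a := by
      rw [Algebra.smul_def, delta, Algebra.TensorProduct.includeRight_apply, mul_sub, embB_tmul_eq,
        embB_tmul_eq, map_one, one_mul, algebraMap_series]
      rfl
    rw [this]
    exact Submodule.smul_mem _ _ (delta_mem_pointKer σ a)
  | add x y hx hy =>
    rw [evReg_embB, map_add, map_add, map_add, add_sub_add_comm, ← evReg_embB, ← evReg_embB]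
    exact add_mem hx hy

theorem mem_pointKer_iff {σ : D.A →ₐ[k] B} {x : LaurentSeries B} :
    x ∈ pointKer σ ↔ ∃ h : x ∈ D.reg B, evReg σ ⟨x, h⟩ = 0 := by
  constructor
  · intro hx
    induction hx using Submodule.span_induction with
    | mem x hx =>
      obtain ⟨a, rfl⟩ := hx
      refine ⟨delta_mem_reg σ a, ?_⟩
      show evReg σ ⟨delta σ a, delta_mem_reg σ a⟩ = 0
      have e : (⟨_, delta_mem_reg σ a⟩ : D.reg B) =
          ⟨_, embB_mem_reg (Algebra.TensorProduct.includeRight a)⟩ - ⟨_, C_mem_reg (σ a)⟩ := rfl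
      rw [show evReg σ ⟨_, delta_mem_reg σ a⟩ = _ from congrArg _ e, map_sub, evReg_includeRight,
        evReg_C, sub_self]
    | zero => exact ⟨zero_mem _, map_zero (evReg σ)⟩
    | add x y _ _ hx hy =>
      obtain ⟨h, e⟩ := hx
      obtain ⟨h', e'⟩ := hy
      exact ⟨add_mem h h', (map_add (evReg σ) ⟨x, h⟩ ⟨y, h'⟩).trans (by rw [e, e', add_zero])⟩
    | smul r x _ hx =>
      obtain ⟨h, e⟩ := hx
      exact ⟨mul_mem r.2 h, (map_mul (evReg σ) r ⟨x, h⟩).trans (by rw [e, mul_zero])⟩
  · rintro ⟨⟨y, rfl⟩, h0⟩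
    have := sub_C_evReg_mem σ y
    rwa [show (⟨D.embB B y, embB_mem_reg y⟩ : D.reg B) = ⟨_, ⟨y, rfl⟩⟩ from rfl, h0, map_zero,
      sub_zero] at this

theorem mem_part {W : D.Lat B} {n : ℕ} {x : LaurentSeries B} :
    x ∈ W.part n ↔ x ∈ W.toBase ∧ ∀ i : ℤ, i ≤ -n → x.coeff i = 0 := by
  refine and_congr Iff.rfl ⟨fun h i hi => ?_, fun h => ?_⟩
  · have := DFunLike.congr_fun (LinearMap.mem_ker.mp h) ⟨(-i).toNat, by omega⟩
    rw [polar_apply, Finsupp.zero_apply] at this
    rwa [show (-((-i).toNat : ℤ)) = i by omega] at this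
  · refine LinearMap.mem_ker.mpr (Finsupp.ext fun j => ?_)
    rw [polar_apply, Finsupp.zero_apply]
    exact h _ (by have := j.2; omega)

/-- The ideal of a point, as a line bundle. -/
def pointLat [IsAlgClosed k] (σ : D.A →ₐ[k] B) : D.Lat B := (isUnit_pointKer σ).unit

end Eval

variable {K : Type u} [Field K] [Algebra k K]

theorem low_iff {n : ℤ} {x : LaurentSeries K} :
    (∀ i : ℤ, i ≤ n → x.coeff i = 0) ↔ x = 0 ∨ n < x.order := by
  refine ⟨fun h => or_iff_not_imp_left.mpr fun hx => ?_, fun h i hi => ?_⟩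
  · by_contra hle
    exact hx (HahnSeries.coeff_order_eq_zero.mp (h _ (not_lt.mp hle)))
  · rcases h with rfl | h
    · simp
    · exact HahnSeries.coeff_eq_zero_of_lt_order (lt_of_le_of_lt hi h)

/-- The degree of a line bundle over a field. -/
def HasDeg (W : D.Lat K) (d : ℤ) : Prop :=
  ∃ N : ℕ, ∀ n : ℕ, N ≤ n → (Module.finrank K (W.part n) : ℤ) + D.genus = n + d

theorem HasDeg.unique {W : D.Lat K} {d d' : ℤ} (h : HasDeg W d) (h' : HasDeg W d') : d = d' := by
  obtain ⟨N, hN⟩ := h
  obtain ⟨N', hN'⟩ := h'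
  have := hN (N + N') (by omega)
  have := hN' (N + N') (by omega)
  omega

theorem finite_part (W : D.Lat K) (n : ℕ) : FiniteDimensional K (W.part n) := by
  obtain ⟨N, hN⟩ := exists_surjective_polar W
  haveI := (part_finite_projective W (hN (max n N) (le_max_right _ _))).1
  exact Submodule.finiteDimensional_of_le (S₂ := W.part (max n N)) fun x hx => by
    rw [mem_part] at hx ⊢
    exact ⟨hx.1, fun i hi => hx.2 i (by omega)⟩

theorem part_mono (W : D.Lat K) {n m : ℕ} (h : n ≤ m) : W.part n ≤ W.part m := fun x hx => by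
  rw [mem_part] at hx ⊢
  exact ⟨hx.1, fun i hi => hx.2 i (by omega)⟩

/-- The leading coefficient map on the sections of pole order at most `n`. -/
def topCoeff (W : D.Lat K) (n : ℕ) : W.part (n + 1) →ₗ[K] K where
  toFun x := x.1.coeff (-(n : ℤ))
  map_add' _ _ := rfl
  map_smul' _ _ := rfl

theorem finrank_ker_topCoeff (W : D.Lat K) (n : ℕ) :
    Module.finrank K (LinearMap.ker (topCoeff W n)) = Module.finrank K (W.part n) := by
  have e : (LinearMap.ker (topCoeff W n)).map (W.part (n + 1)).subtype = W.part n := by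
    ext x
    rw [Submodule.mem_map, mem_part]
    constructor
    · rintro ⟨⟨y, hy⟩, hy0, rfl⟩
      rw [mem_part] at hy
      refine ⟨hy.1, fun i hi => ?_⟩
      rcases eq_or_lt_of_le hi with rfl | hlt
      · exact hy0
      · exact hy.2 i (by omega)
    · rintro ⟨hx, hlow⟩
      exact ⟨⟨x, mem_part.mpr ⟨hx, fun i hi => hlow i (by omega)⟩⟩, hlow _ le_rfl, rfl⟩
  conv_rhs => rw [← e]
  exact (Submodule.finrank_map_subtype_eq _ _).symm

theorem finrank_part_succ_le (W : D.Lat K) (n : ℕ) :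
    Module.finrank K (W.part (n + 1)) ≤ Module.finrank K (W.part n) + 1 := by
  haveI := finite_part W (n + 1)
  have h := LinearMap.finrank_range_add_finrank_ker (topCoeff W n)
  have := Submodule.finrank_le (LinearMap.range (topCoeff W n))
  rw [Module.finrank_self] at this
  rw [finrank_ker_topCoeff] at h
  omega

theorem finrank_part_le_add (W : D.Lat K) {n m : ℕ} (h : n ≤ m) :
    Module.finrank K (W.part m) ≤ Module.finrank K (W.part n) + (m - n) := by
  induction m, h using Nat.le_induction with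
  | base => simp
  | succ m hm ih => have := finrank_part_succ_le W m; omega

theorem finrank_part_succ_eq (W : D.Lat K) {n : ℕ} (h : ∃ x ∈ W.part (n + 1), x.coeff (-(n : ℤ)) ≠ 0) :
    Module.finrank K (W.part (n + 1)) = Module.finrank K (W.part n) + 1 := by
  obtain ⟨x, hx, hx0⟩ := h
  refine le_antisymm (finrank_part_succ_le W n) ?_
  haveI := finite_part W (n + 1)
  refine Submodule.finrank_lt_finrank_of_lt (lt_of_le_of_ne (part_mono W (Nat.le_succ n)) fun e => ?_)
  rw [← e] at hx
  exact hx0 ((mem_part.mp hx).2 _ le_rfl)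

theorem hasDeg_of_forall_top (W : D.Lat K) {N : ℕ}
    (h : ∀ n, N ≤ n → ∃ x ∈ W.part (n + 1), x.coeff (-(n : ℤ)) ≠ 0) :
    ∀ n, N ≤ n → Module.finrank K (W.part n) = Module.finrank K (W.part N) + (n - N) := by
  intro n hn
  induction n, hn using Nat.le_induction with
  | base => simp
  | succ n hn ih => rw [finrank_part_succ_eq W (h n hn), ih]; omega

theorem exists_hasDeg (W : D.Lat K) : ∃ d, HasDeg W d := by
  classical
  obtain ⟨N, hN⟩ := exists_surjective_polar W
  have h := hasDeg_of_forall_top W (N := N) fun n hn => by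
    obtain ⟨x, hx⟩ := hN n hn (Finsupp.single ⟨n, le_rfl⟩ 1)
    refine ⟨x.1, mem_part.mpr ⟨x.2, fun i hi => ?_⟩, ?_⟩
    · have := DFunLike.congr_fun hx ⟨(-i).toNat, by omega⟩
      rw [LinearMap.comp_apply, Submodule.subtype_apply, polar_apply, Finsupp.single_apply,
        if_neg (fun e => by have := congrArg Subtype.val e; simp at this; omega)] at this
      rwa [show (-((-i).toNat : ℤ)) = i by omega] at this
    · have := DFunLike.congr_fun hx ⟨n, le_rfl⟩
      rw [LinearMap.comp_apply, Submodule.subtype_apply, polar_apply, Finsupp.single_eq_same] at this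
      rw [this]
      exact one_ne_zero
  refine ⟨(Module.finrank K (W.part N) : ℤ) + D.genus - N, N, fun n hn => ?_⟩
  rw [h n hn]
  omega

theorem mem_principal_mul {x : (LaurentSeries K)ˣ} {W : D.Lat K} {y : LaurentSeries K} :
    y ∈ (D.principal K x * W : D.Lat K).toBase ↔ ∃ z ∈ W.toBase, x.1 * z = y :=
  Submodule.mem_span_singleton_mul (R := D.reg K) (P := (W : Submodule (D.reg K) (LaurentSeries K)))
    (x := y) (y := x.1)

theorem HasDeg.principal_mul {W : D.Lat K} {d : ℤ} (h : HasDeg W d) (x : (LaurentSeries K)ˣ) :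
    HasDeg (D.principal K x * W) (d + x.1.order) := by
  obtain ⟨N, hN⟩ := h
  refine ⟨N + x.1.order.natAbs, fun n hn => ?_⟩
  obtain ⟨m, hm⟩ : ∃ m : ℕ, (m : ℤ) = n + x.1.order :=
    ⟨((n : ℤ) + x.1.order).toNat, Int.toNat_of_nonneg (by omega)⟩
  have e : (W.part m).map (LinearMap.mulLeft K x.1) = (D.principal K x * W).part n := by
    ext y
    rw [Submodule.mem_map, mem_part, mem_principal_mul]
    constructor
    · rintro ⟨z, hz, rfl⟩
      rw [mem_part, low_iff] at hz
      refine ⟨⟨z, hz.1, rfl⟩, low_iff.mpr ?_⟩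
      rcases hz.2 with rfl | h0
      · left; simp
      · rcases eq_or_ne z 0 with rfl | hz0
        · left; simp
        right
        show -(n : ℤ) < (x.1 * z).order
        rw [HahnSeries.order_mul x.ne_zero hz0]
        omega
    · rintro ⟨⟨z, hz, rfl⟩, hlow⟩
      refine ⟨z, mem_part.mpr ⟨hz, low_iff.mpr ?_⟩, rfl⟩
      rw [low_iff] at hlow
      rcases eq_or_ne z 0 with h0 | hz0
      · exact Or.inl h0
      · right
        have := hlow.resolve_left (mul_ne_zero x.ne_zero hz0)
        rw [HahnSeries.order_mul x.ne_zero hz0] at this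
        omega
  have := hN m (by omega)
  rw [← e, ← (Submodule.equivMapOfInjective (LinearMap.mulLeft K x.1)
    (mul_right_injective₀ x.ne_zero) (W.part m)).finrank_eq]
  omega

theorem exists_dual_pair (W : D.Lat K) (σ : D.A →ₐ[k] K) :
    ∃ w ∈ W.toBase, ∃ v ∈ (W⁻¹ : D.Lat K).toBase, ∃ h : w * v ∈ D.reg K,
      evReg σ ⟨w * v, h⟩ ≠ 0 := by
  by_contra hall
  push Not at hall
  have h1 : ((W : Submodule (D.reg K) (LaurentSeries K)) * (W⁻¹ : D.Lat K).1) ≤ pointKer σ :=
    Submodule.mul_le.mpr fun w hw v hv => by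
      have hreg : w * v ∈ D.reg K := by
        have := Submodule.mul_mem_mul hw hv
        rw [W.mul_inv] at this
        obtain ⟨r, hr⟩ := Submodule.mem_one.mp this
        rw [← hr]
        exact r.2
      exact mem_pointKer_iff.mpr ⟨hreg, hall w hw v hv hreg⟩
  rw [W.mul_inv] at h1
  obtain ⟨h, h0⟩ := mem_pointKer_iff.mp (h1 (Submodule.one_le.mp le_rfl))
  exact one_ne_zero (((map_one (evReg σ)).symm.trans h0) : (1 : K) = 0)

theorem mul_mem_reg_of_mem {W : D.Lat K} {x v : LaurentSeries K} (hx : x ∈ W.toBase)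
    (hv : v ∈ (W⁻¹ : D.Lat K).toBase) : x * v ∈ D.reg K := by
  have := Submodule.mul_mem_mul (M := (W : Submodule (D.reg K) (LaurentSeries K))) hx hv
  rw [W.mul_inv] at this
  obtain ⟨r, hr⟩ := Submodule.mem_one.mp this
  rw [← hr]
  exact r.2

/-- Evaluation of sections at a point, after a trivialisation there. -/
def secEval (W : D.Lat K) (σ : D.A →ₐ[k] K) {v : LaurentSeries K}
    (hv : v ∈ (W⁻¹ : D.Lat K).toBase) : W.toBase →ₗ[K] K where
  toFun x := evReg σ ⟨x.1 * v, mul_mem_reg_of_mem x.2 hv⟩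
  map_add' x y := by
    rw [← map_add]
    exact congrArg _ (Subtype.ext (add_mul x.1 y.1 v))
  map_smul' c x := by
    rw [RingHom.id_apply, ← map_smul]
    exact congrArg _ (Subtype.ext (smul_mul_assoc c x.1 v))

theorem mem_pointKer_mul [IsAlgClosed k] {W : D.Lat K} {σ : D.A →ₐ[k] K}
    {w v : LaurentSeries K} (hw : w ∈ W.toBase) (hv : v ∈ (W⁻¹ : D.Lat K).toBase)
    (h0 : secEval W σ hv ⟨w, hw⟩ ≠ 0) {x : LaurentSeries K} :
    x ∈ (pointLat σ * W).toBase ↔ ∃ hx : x ∈ W.toBase, secEval W σ hv ⟨x, hx⟩ = 0 := by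
  constructor
  · intro hx
    change x ∈ pointKer σ * (W : Submodule (D.reg K) (LaurentSeries K)) at hx
    have hxW : x ∈ W.toBase := by
      have := (mul_le_mul_left (pointKer_le_one σ) _) hx
      rwa [one_mul] at this
    refine ⟨hxW, ?_⟩
    have : x * v ∈ pointKer σ := by
      refine Submodule.mul_induction_on hx (fun i hi y hy => ?_) (fun a b ha hb => ?_)
      · obtain ⟨r, hr⟩ : ∃ r : D.reg K, r.1 = y * v := ⟨⟨_, mul_mem_reg_of_mem hy hv⟩, rfl⟩
        rw [mul_assoc, ← hr, mul_comm]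
        exact (pointKer σ).smul_mem r hi
      · rw [add_mul]; exact add_mem ha hb
    obtain ⟨h, e⟩ := mem_pointKer_iff.mp this
    exact e
  · rintro ⟨hx, hx0⟩
    show x ∈ pointKer σ * (W : Submodule (D.reg K) (LaurentSeries K))
    have hall : ∀ v' ∈ (W⁻¹ : D.Lat K).toBase, x * v' ∈ pointKer σ := fun v' hv' => by
      refine mem_pointKer_iff.mpr ⟨mul_mem_reg_of_mem hx hv', ?_⟩
      have e : evReg σ ⟨w * v, mul_mem_reg_of_mem hw hv⟩ *
          evReg σ ⟨x * v', mul_mem_reg_of_mem hx hv'⟩ =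
          evReg σ ⟨x * v, mul_mem_reg_of_mem hx hv⟩ *
          evReg σ ⟨w * v', mul_mem_reg_of_mem hw hv'⟩ := by
        rw [← map_mul, ← map_mul]
        exact congrArg _ (Subtype.ext (show w * v * (x * v') = x * v * (w * v') by ring))
      rw [show evReg σ ⟨x * v, mul_mem_reg_of_mem hx hv⟩ = 0 from hx0, zero_mul, mul_eq_zero] at e
      exact e.resolve_left h0
    have hmem : ∀ y ∈ (W⁻¹ : D.Lat K).1 * (W : Submodule (D.reg K) (LaurentSeries K)),
        x * y ∈ pointKer σ * (W : Submodule (D.reg K) (LaurentSeries K)) := fun y hy => by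
      refine Submodule.mul_induction_on hy (fun v' hv' z hz => ?_) (fun a b ha hb => ?_)
      · rw [← mul_assoc]; exact Submodule.mul_mem_mul (hall v' hv') hz
      · rw [mul_add]; exact add_mem ha hb
    have := hmem 1 (by rw [W.inv_mul]; exact Submodule.one_le.mp le_rfl)
    rwa [mul_one] at this

theorem HasDeg.pointKer_mul [IsAlgClosed k] {W : D.Lat K} {d : ℤ} (h : HasDeg W d)
    (σ : D.A →ₐ[k] K) : HasDeg (pointLat σ * W) (d - 1) := by
  obtain ⟨N, hN⟩ := h
  obtain ⟨w, hw, v, hv, hwv, h0⟩ := exists_dual_pair W σ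
  refine ⟨N + (-w.order).toNat + 1, fun n hn => ?_⟩
  haveI := finite_part W n
  let ψ : W.part n →ₗ[K] K :=
    (secEval W σ hv).comp (Submodule.inclusion (inf_le_left : W.part n ≤ W.toBase))
  have hwn : w ∈ W.part n := mem_part.mpr ⟨hw, low_iff.mpr (Or.inr (by omega))⟩
  have hψ : LinearMap.range ψ = ⊤ := by
    rw [LinearMap.range_eq_top]
    intro c
    refine ⟨(c / ψ ⟨w, hwn⟩) • ⟨w, hwn⟩, ?_⟩
    rw [map_smul, smul_eq_mul, div_mul_cancel₀]
    exact h0
  have hker : (LinearMap.ker ψ).map (W.part n).subtype =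
      (pointLat σ * W).part n := by
    ext x
    rw [Submodule.mem_map, mem_part, mem_pointKer_mul hw hv h0]
    constructor
    · rintro ⟨⟨y, hy⟩, hy0, rfl⟩
      exact ⟨⟨(mem_part.mp hy).1, hy0⟩, (mem_part.mp hy).2⟩
    · rintro ⟨⟨hx, hx0⟩, hlow⟩
      exact ⟨⟨x, mem_part.mpr ⟨hx, hlow⟩⟩, hx0, rfl⟩
  have hrk := LinearMap.finrank_range_add_finrank_ker ψ
  rw [hψ, finrank_top, Module.finrank_self] at hrk
  have := hN n (by omega)
  rw [← hker, Submodule.finrank_map_subtype_eq]
  omega

theorem hasDeg_one : HasDeg (1 : D.Lat K) 0 := by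
  obtain ⟨N, hN⟩ := degZero_one (D := D) (B := K) K (AlgHom.id k K)
  refine ⟨N, fun n hn => ?_⟩
  have := hN n hn
  rw [map_one] at this
  omega

theorem HasDeg.map {W : D.Lat K} {d : ℤ} (h : HasDeg W d) {L : Type u} [Field L] [Algebra k L]
    (φ : K →ₐ[k] L) : HasDeg (D.latMap φ W) d := by
  obtain ⟨N, hN⟩ := h
  obtain ⟨N', hN'⟩ := exists_surjective_polar W
  letI : Algebra K L := φ.toRingHom.toAlgebra
  haveI : IsScalarTower k K L := IsScalarTower.of_algebraMap_eq fun r => (φ.commutes r).symm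
  refine ⟨N + N', fun n hn => ?_⟩
  haveI := finite_part W n
  obtain ⟨e⟩ := nonempty_part_baseChange (B' := L) W (hN' n (by omega))
  have h1 := e.finrank_eq
  rw [Module.finrank_baseChange] at h1
  have : IsScalarTower.toAlgHom k K L = φ := AlgHom.ext fun _ => rfl
  rw [this] at h1
  rw [← h1]
  exact hN n (by omega)

theorem hasDeg_zero_iff {W : D.Lat K} : HasDeg W 0 ↔ W.DegZero := by
  refine ⟨fun h L _ _ φ => ?_, fun h => ?_⟩
  · obtain ⟨N, hN⟩ := h.map φ
    exact ⟨N, fun n hn => by have := hN n hn; omega⟩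
  · obtain ⟨N, hN⟩ := h K (AlgHom.id k K)
    refine ⟨N, fun n hn => ?_⟩
    have := hN n hn
    rw [latMap_id] at this
    omega

end Fermat.Agent.Jac.CurveData
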