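/-
S25, unit U6: over an algebraically closed field the invertible submodules of the coordinate ring are
products of ideals of points; additivity of the degree.
-/
import Fermat.Agent.Jac.Points.Degree
import Mathlib.FieldTheory.IsAlgClosed.AlgebraicClosure

set_option autoImplicit false
set_option linter.style.haveILetI false
set_option linter.unusedSectionVars false

noncomputable section

universe u

open TensorProduct

namespace Fermat.Agent.Jac

theorem exists_powerSeries_unit {K : Type*} [Field K] (x : (LaurentSeries K)ˣ)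
    (h : x.1.order = 0) :
    ∃ u : (PowerSeries K)ˣ, Units.map (HahnSeries.ofPowerSeries ℤ K).toMonoidHom u = x := by
  have hp : HahnSeries.ofPowerSeries ℤ K (LaurentSeries.powerSeriesPart x.1) = x.1 := by
    rw [LaurentSeries.ofPowerSeries_powerSeriesPart, h, neg_zero]
    exact one_mul _
  have hu : IsUnit (LaurentSeries.powerSeriesPart x.1) := by
    refine PowerSeries.isUnit_iff_constantCoeff.mpr (isUnit_iff_ne_zero.mpr fun h0 => ?_)
    rw [← PowerSeries.coeff_zero_eq_constantCoeff_apply, LaurentSeries.powerSeriesPart_coeff,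
      Nat.cast_zero, add_zero] at h0
    exact x.ne_zero (HahnSeries.coeff_order_eq_zero.mp h0)
  exact ⟨hu.unit, Units.ext hp⟩

theorem xPow_pow (R : Type*) [CommRing R] (m : ℤ) (c : ℕ) : xPow R m ^ c = xPow R (c * m) := by
  induction c with
  | zero => exact Units.ext (by simp [xPow])
  | succ c ih =>
    rw [pow_succ, ih]
    refine Units.ext ?_
    show HahnSeries.single ((c : ℤ) * m) (1 : R) * HahnSeries.single m 1 = HahnSeries.single _ 1
    rw [HahnSeries.single_mul_single, one_mul,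
      show (c : ℤ) * m + m = ((c + 1 : ℕ) : ℤ) * m by push_cast; ring]

namespace CurveData

variable {k : Type u} [Field k] [IsAlgClosed k] {D : CurveData k}
variable {K : Type u} [Field K] [Algebra k K]

theorem toBase_le_one {J : D.Lat K} (hJ : J.1 ≤ 1) {n : ℕ} : J.part n ≤ (1 : D.Lat K).part n :=
  fun _ hx => ⟨hJ hx.1, hx.2⟩

theorem HasDeg.nonpos {J : D.Lat K} {e : ℤ} (h : HasDeg J e) (hJ : J.1 ≤ 1) : e ≤ 0 := by
  obtain ⟨N, hN⟩ := h
  obtain ⟨N', hN'⟩ := hasDeg_one (D := D) (K := K)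
  haveI := finite_part (1 : D.Lat K) (N + N')
  have := Submodule.finrank_mono (toBase_le_one hJ (n := N + N'))
  have := hN (N + N') (by omega)
  have := hN' (N + N') (by omega)
  omega

theorem HasDeg.prod_mul {W : D.Lat K} {d : ℤ} (h : HasDeg W d) (s : Multiset (D.A →ₐ[k] K)) :
    HasDeg ((s.map pointLat).prod * W) (d - s.card) := by
  induction s using Multiset.induction_on with
  | empty => simpa using h
  | cons a s ih =>
    rw [Multiset.map_cons, Multiset.prod_cons, Multiset.card_cons, mul_assoc]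
    have := ih.pointKer_mul a
    rwa [show d - ((s.card + 1 : ℕ) : ℤ) = d - s.card - 1 by omega]

/-- An invertible submodule of the coordinate ring other than the whole lies in the ideal of a point. -/
theorem exists_le_pointKer [IsAlgClosed K] {J : Submodule (D.reg K) (LaurentSeries K)}
    (hJ : J ≤ 1) (h1 : J ≠ 1) : ∃ σ : D.A →ₐ[k] K, J ≤ pointKer σ := by
  let I : Ideal (D.reg K) := J.comap (Algebra.linearMap (D.reg K) (LaurentSeries K))
  have hI : I ≠ ⊤ := fun h => h1 (le_antisymm hJ (Submodule.one_le.mpr (by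
    have h' : (1 : D.reg K) ∈ I := h ▸ Submodule.mem_top
    simpa [I] using h')))
  obtain ⟨P, hP, hIP⟩ := Ideal.exists_le_maximal I hI
  haveI : Algebra.FiniteType K (D.reg K) :=
    Algebra.FiniteType.of_surjective (D.embB K).rangeRestrict (D.embB K).rangeRestrict_surjective
  obtain ⟨φ, hφ⟩ := exists_algHom_ker (K := K) P
  let σ : D.A →ₐ[k] K :=
    ((φ.comp (D.embB K).rangeRestrict).restrictScalars k).comp Algebra.TensorProduct.includeRight
  have hev : ∀ y : D.Coord K, evReg σ ⟨D.embB K y, embB_mem_reg y⟩ = φ ⟨D.embB K y, embB_mem_reg y⟩ := by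
    intro y
    induction y using TensorProduct.induction_on with
    | zero =>
      rw [evReg_embB, map_zero]
      exact ((congrArg φ (Subtype.ext (map_zero (D.embB K)))).trans (map_zero φ)).symm
    | tmul b a =>
      rw [evReg_tmul]
      have e : (⟨D.embB K (b ⊗ₜ a), embB_mem_reg _⟩ : D.reg K) =
          b • (D.embB K).rangeRestrict ((1 : K) ⊗ₜ a) := Subtype.ext (by
        show D.embB K (b ⊗ₜ a) = b • D.embB K ((1 : K) ⊗ₜ a)
        rw [← map_smul, TensorProduct.smul_tmul', smul_eq_mul, mul_one])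
      rw [e]
      exact (map_smul φ b _).symm
    | add x y hx hy =>
      have e : (⟨D.embB K (x + y), embB_mem_reg _⟩ : D.reg K) =
          ⟨D.embB K x, embB_mem_reg _⟩ + ⟨D.embB K y, embB_mem_reg _⟩ := Subtype.ext (map_add _ _ _)
      rw [e, map_add, map_add, hx, hy]
  refine ⟨σ, fun x hx => ?_⟩
  obtain ⟨r, rfl⟩ := Submodule.mem_one.mp (hJ hx)
  obtain ⟨y, hy⟩ := r.2
  refine mem_pointKer_iff.mpr ⟨r.2, ?_⟩
  have hr : r ∈ P := hIP hx
  rw [← hφ, RingHom.mem_ker] at hr
  have er : r = ⟨D.embB K y, embB_mem_reg y⟩ := Subtype.ext hy.symm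
  show evReg σ r = 0
  rw [er, hev, ← er]
  exact hr

theorem exists_prod_of_le_one [IsAlgClosed K] {J : D.Lat K} {e : ℤ} (he : HasDeg J e)
    (hJ : J.1 ≤ 1) :
    ∃ s : Multiset (D.A →ₐ[k] K), J = (s.map pointLat).prod ∧ (s.card : ℤ) = -e := by
  obtain ⟨n, hn⟩ : ∃ n : ℕ, -e ≤ n := ⟨(-e).toNat, by omega⟩
  induction n generalizing J e with
  | zero =>
    rcases eq_or_ne J 1 with rfl | h1
    · exact ⟨0, by simp, by have := he.unique hasDeg_one; simp [this]⟩
    · obtain ⟨σ, hσ⟩ := exists_le_pointKer hJ fun h => h1 (Units.ext h)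
      obtain ⟨x, hx⟩ := exists_hasDeg ((pointLat σ)⁻¹ * J)
      have hle : ((pointLat σ)⁻¹ * J : D.Lat K).1 ≤ 1 := by
        calc ((pointLat σ)⁻¹ * J : D.Lat K).1 ≤ (pointLat σ)⁻¹.1 * (pointLat σ).1 :=
              mul_le_mul_right hσ _
          _ = 1 := (pointLat σ).inv_mul
      have h0 := hx.nonpos hle
      have h2 := hx.pointKer_mul σ
      rw [mul_inv_cancel_left] at h2
      have := he.unique h2
      omega
  | succ n ih =>
    rcases eq_or_ne J 1 with rfl | h1
    · exact ⟨0, by simp, by have := he.unique hasDeg_one; simp [this]⟩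
    · obtain ⟨σ, hσ⟩ := exists_le_pointKer hJ fun h => h1 (Units.ext h)
      obtain ⟨x, hx⟩ := exists_hasDeg ((pointLat σ)⁻¹ * J)
      have hle : ((pointLat σ)⁻¹ * J : D.Lat K).1 ≤ 1 := by
        calc ((pointLat σ)⁻¹ * J : D.Lat K).1 ≤ (pointLat σ)⁻¹.1 * (pointLat σ).1 :=
              mul_le_mul_right hσ _
          _ = 1 := (pointLat σ).inv_mul
      have h2 := hx.pointKer_mul σ
      rw [mul_inv_cancel_left] at h2
      have := he.unique h2
      obtain ⟨s, hs, hc⟩ := ih hx hle (by omega)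
      refine ⟨σ ::ₘ s, ?_, ?_⟩
      · rw [Multiset.map_cons, Multiset.prod_cons, ← hs, mul_inv_cancel_left]
      · rw [Multiset.card_cons]
        omega

theorem principal_le_of_mem {W : D.Lat K} {m : (LaurentSeries K)ˣ} (hm : m.1 ∈ W.toBase) :
    (D.principal K m).1 ≤ W.1 :=
  (Submodule.span_singleton_le_iff_mem m.1 W.1).mpr hm

/-- A nonzero section gives an effective divisor. -/
theorem exists_eq_divisor [IsAlgClosed K] {W : D.Lat K} {d : ℤ} (hW : HasDeg W d)
    {m : (LaurentSeries K)ˣ} (hm : m.1 ∈ W.toBase) :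
    ∃ s : Multiset (D.A →ₐ[k] K),
      (s.map pointLat).prod * W = D.principal K m ∧ (s.card : ℤ) = d - m.1.order := by
  obtain ⟨e, he⟩ := exists_hasDeg (D.principal K m * W⁻¹)
  have hle : (D.principal K m * W⁻¹ : D.Lat K).1 ≤ 1 :=
    calc (D.principal K m * W⁻¹ : D.Lat K).1 ≤ W.1 * (W⁻¹ : D.Lat K).1 :=
          mul_le_mul_left (principal_le_of_mem hm) _
      _ = 1 := W.mul_inv
  obtain ⟨s, hs, hc⟩ := exists_prod_of_le_one he hle
  have h1 : (s.map pointLat).prod * W = D.principal K m := by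
    rw [← hs, inv_mul_cancel_right]
  refine ⟨s, h1, ?_⟩
  have h2 := hW.prod_mul s
  rw [h1] at h2
  have h3 := (hasDeg_one (D := D) (K := K)).principal_mul m
  rw [mul_one, zero_add] at h3
  have := h2.unique h3
  omega

theorem exists_section {W : D.Lat K} {d : ℤ} (hW : HasDeg W d) :
    ∃ m : (LaurentSeries K)ˣ, m.1 ∈ W.toBase := by
  obtain ⟨N, hN⟩ := hW
  let n := N + ((D.genus : ℤ) - d).toNat + 1
  have hne : W.part n ≠ ⊥ := fun h => by
    have := hN n (by omega)
    rw [h, finrank_bot] at this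
    omega
  obtain ⟨m, hm, hm0⟩ := Submodule.exists_mem_ne_zero_of_ne_bot hne
  exact ⟨Units.mk0 m hm0, (mem_part.mp hm).1⟩

theorem HasDeg.mul_of_isAlgClosed [IsAlgClosed K] {V W : D.Lat K} {v d : ℤ} (hV : HasDeg V v)
    (hW : HasDeg W d) : HasDeg (V * W) (v + d) := by
  obtain ⟨m, hm⟩ := exists_section hW
  obtain ⟨s, hs, hc⟩ := exists_eq_divisor hW hm
  obtain ⟨x, hx⟩ := exists_hasDeg (V * (s.map pointLat).prod⁻¹)
  have h1 := hx.prod_mul s
  rw [mul_comm V, mul_inv_cancel_left] at h1
  have := h1.unique hV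
  have h2 := hx.principal_mul m
  rw [← hs, show (s.map pointLat).prod * W * (V * (s.map pointLat).prod⁻¹) = V * W by
    rw [mul_comm V (_ : D.Lat K)⁻¹, mul_comm (s.map pointLat).prod W, mul_assoc,
      mul_inv_cancel_left]
    exact mul_comm W V] at h2
  rwa [show v + d = x + m.1.order by omega]

theorem HasDeg.mul {V W : D.Lat K} {v d : ℤ} (hV : HasDeg V v) (hW : HasDeg W d) :
    HasDeg (V * W) (v + d) := by
  obtain ⟨x, hx⟩ := exists_hasDeg (V * W)
  let φ : K →ₐ[k] AlgebraicClosure K := IsScalarTower.toAlgHom k K (AlgebraicClosure K)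
  have h := hx.map φ
  rw [map_mul] at h
  rwa [← h.unique ((hV.map φ).mul_of_isAlgClosed (hW.map φ))]

theorem HasDeg.inv {W : D.Lat K} {d : ℤ} (hW : HasDeg W d) : HasDeg W⁻¹ (-d) := by
  obtain ⟨x, hx⟩ := exists_hasDeg W⁻¹
  have := hx.mul hW
  rw [inv_mul_cancel] at this
  have := this.unique hasDeg_one
  rwa [show -d = x by omega]

theorem Lat.DegZero.hasDeg {B : Type u} [CommRing B] [Algebra k B] {W : D.Lat B} (hW : W.DegZero)
    (φ : B →ₐ[k] K) : HasDeg (D.latMap φ W) 0 := by
  obtain ⟨N, hN⟩ := hW K φ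
  exact ⟨N, fun n hn => by have := hN n hn; omega⟩

theorem degZero_of_hasDeg {B : Type u} [CommRing B] [Algebra k B] {W : D.Lat B}
    (h : ∀ (L : Type u) [Field L] [Algebra k L] (φ : B →ₐ[k] L), HasDeg (D.latMap φ W) 0) :
    W.DegZero := fun L _ _ φ => by
  obtain ⟨N, hN⟩ := h L φ
  exact ⟨N, fun n hn => by have := hN n hn; omega⟩

theorem DegZero.mul {B : Type u} [CommRing B] [Algebra k B] {V W : D.Lat B} (hV : V.DegZero)
    (hW : W.DegZero) : (V * W).DegZero := degZero_of_hasDeg fun L _ _ φ => by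
  rw [map_mul]
  exact (hV.hasDeg φ).mul (hW.hasDeg φ)

theorem DegZero.inv {B : Type u} [CommRing B] [Algebra k B] {W : D.Lat B}
    (hW : W.DegZero) : W⁻¹.DegZero := degZero_of_hasDeg fun L _ _ φ => by
  rw [map_inv]
  exact (hW.hasDeg φ).inv

end CurveData

end Fermat.Agent.Jac
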